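/-
Fermat/Agent/Jac/AffineDict73/InvertibleLocal.lean  (helper73)

Brick M2a of the S25 programme, file 2/3 (pure commutative algebra, Mathlib only).
* `finitePresentation_of_localizationSpan`: finite presentation is Zariski local.
* `invertible_of_localizationSpan`: a module that is free of rank one on a Zariski cover
  `D(r)`, `r ∈ s`, `span s = ⊤`, is `Module.Invertible`.
-/
import Mathlib

set_option autoImplicit false

open TensorProduct

namespace Fermat.Agent.Jac.AffineDict73

variable {R : Type*} [CommRing R] {M : Type*} [AddCommGroup M] [Module R M]

/-- Finite presentation is Zariski-local on the base ring (for modules that are locally free of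
rank one; general statement: locally finitely presented). -/
theorem finitePresentation_of_localizationSpan (s : Set R) (hs : Ideal.span s = ⊤)
    (h : ∀ r : s, Module.FinitePresentation (Localization.Away r.1)
      (LocalizedModule.Away r.1 M)) :
    Module.FinitePresentation R M := by
  have hfin : Module.Finite R M :=
    Module.Finite.of_localizationSpan s hs (fun r => inferInstance)
  obtain ⟨n, π, hπ⟩ := Module.Finite.exists_fin' R M
  refine Module.finitePresentation_of_surjective π hπ ?_
  refine Submodule.of_localizationSpan s hs (fun r => ?_)
  have hsurj : Function.Surjective (LocalizedModule.map (Submonoid.powers r.1) π) :=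
    LocalizedModule.map_surjective _ _ hπ
  have hker := Module.FinitePresentation.fg_ker (LocalizedModule.map (Submonoid.powers r.1) π) hsurj
  have heq := LinearMap.localized'_ker_eq_ker_localizedMap (Localization.Away r.1)
    (Submonoid.powers r.1) (LocalizedModule.mkLinearMap (Submonoid.powers r.1) (Fin n → R))
    (LocalizedModule.mkLinearMap (Submonoid.powers r.1) M) π
  rw [Submodule.localized, heq]
  exact hker

section
variable (S : Submonoid R)

/-- The localization map on the source of `contractLeft`. -/
noncomputable def dualTensorLoc :
    Module.Dual R M ⊗[R] M →ₗ[R]
      Module.Dual (Localization S) (LocalizedModule S M) ⊗[R] LocalizedModule S M :=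
  TensorProduct.map
    (IsLocalizedModule.mapExtendScalars S (LocalizedModule.mkLinearMap S M)
      (Algebra.linearMap R (Localization S)) (Localization S))
    (LocalizedModule.mkLinearMap S M)

instance [Module.FinitePresentation R M] : IsLocalizedModule S (dualTensorLoc (M := M) S) := by
  unfold dualTensorLoc
  infer_instance

/-- Contraction for the localized module, as an `R`-linear map on the tensor product over `R`. -/
noncomputable def contractLoc :
    Module.Dual (Localization S) (LocalizedModule S M) ⊗[R] LocalizedModule S M →ₗ[R]
      Localization S :=
  (contractLeft (Localization S) (LocalizedModule S M)).restrictScalars R ∘ₗ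
    ((IsLocalization.moduleTensorEquiv S (Localization S)
      (Module.Dual (Localization S) (LocalizedModule S M)) (LocalizedModule S M)).symm.restrictScalars
        R).toLinearMap

theorem contractLoc_tmul (φ : Module.Dual (Localization S) (LocalizedModule S M))
    (m : LocalizedModule S M) : contractLoc S (φ ⊗ₜ[R] m) = φ m := by
  simp only [contractLoc, IsLocalization.moduleTensorEquiv, LinearMap.coe_comp,
    LinearMap.coe_restrictScalars, LinearEquiv.coe_coe, LinearEquiv.restrictScalars_apply,
    Function.comp_apply]
  have : (equivOfCompatibleSMul R (Localization S) (Localization S)
      (Module.Dual (Localization S) (LocalizedModule S M)) (LocalizedModule S M)).symm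
        (φ ⊗ₜ[R] m) = φ ⊗ₜ[Localization S] m := rfl
  rw [this, contractLeft_apply]

theorem contractLoc_comp_dualTensorLoc :
    contractLoc S ∘ₗ dualTensorLoc (M := M) S =
      Algebra.linearMap R (Localization S) ∘ₗ contractLeft R M := by
  apply TensorProduct.ext'
  intro φ m
  simp only [LinearMap.coe_comp, Function.comp_apply, dualTensorLoc, TensorProduct.map_tmul,
    contractLoc_tmul, contractLeft_apply, IsLocalizedModule.mapExtendScalars_apply_apply,
    IsLocalizedModule.map_apply]

theorem contractLoc_bijective
    (e : LocalizedModule S M ≃ₗ[Localization S] Localization S) :
    Function.Bijective (contractLoc (M := M) S) := by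
  have : Module.Invertible (Localization S) (LocalizedModule S M) := Module.Invertible.congr e.symm
  unfold contractLoc
  exact (Module.Invertible.bijective).comp (LinearEquiv.bijective _)

end

/-- A module which is free of rank one on a Zariski cover `D(r)`, `r ∈ s`, is invertible. -/
theorem invertible_of_localizationSpan (s : Set R) (hs : Ideal.span s = ⊤)
    (h : ∀ r : s, Nonempty (LocalizedModule.Away r.1 M ≃ₗ[Localization.Away r.1]
      Localization.Away r.1)) :
    Module.Invertible R M := by
  have hfp : Module.FinitePresentation R M :=
    finitePresentation_of_localizationSpan s hs
      (fun r => Module.FinitePresentation.of_equiv (h r).some.symm)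
  constructor
  refine bijective_of_isLocalized_span s hs
    (fun r => Module.Dual (Localization.Away r.1) (LocalizedModule.Away r.1 M) ⊗[R]
      LocalizedModule.Away r.1 M)
    (fun r => dualTensorLoc (M := M) (Submonoid.powers r.1))
    (fun r => Localization.Away r.1)
    (fun r => Algebra.linearMap R (Localization.Away r.1)) (contractLeft R M) (fun r => ?_)
  have heq : IsLocalizedModule.map (Submonoid.powers r.1)
      (dualTensorLoc (M := M) (Submonoid.powers r.1))
      (Algebra.linearMap R (Localization.Away r.1)) (contractLeft R M) =
      contractLoc (M := M) (Submonoid.powers r.1) := by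
    apply IsLocalizedModule.linearMap_ext (Submonoid.powers r.1)
      (dualTensorLoc (M := M) (Submonoid.powers r.1))
      (Algebra.linearMap R (Localization.Away r.1))
    rw [IsLocalizedModule.map_comp, contractLoc_comp_dualTensorLoc]
  rw [heq]
  exact contractLoc_bijective _ (h r).some

end Fermat.Agent.Jac.AffineDict73
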