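/-
Fermat/Agent/Jac/AffineDict73/Qcoh.lean  (helper73)

Brick M2a (affine dictionary, invertible part) of the S25 programme, file 1/3.
A module on a scheme which is locally trivial in the sense of the frozen definition
`Scheme.Modules.IsInvertible` (trivial after pullback along `U.ι` for a cover by opens `U`) is
locally free, hence quasi-coherent.
-/
import Mathlib
import Fermat.Prelude.Def_AlgebraicGeometry_RelativePicardFunctor

set_option autoImplicit false

universe u

open CategoryTheory CategoryTheory.Limits AlgebraicGeometry TopologicalSpace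

namespace Fermat.Agent.Jac.AffineDict73

noncomputable section

variable {X : Scheme.{u}}

/-- The unit sheaf of the over-site corresponds to the unit sheaf of the open subscheme. -/
def overEquivUnitIso (U : X.Opens) :
    (Scheme.Modules.overEquiv U).functor.obj (SheafOfModules.unit (X.ringCatSheaf.over U)) ≅
      SheafOfModules.unit U.toScheme.ringCatSheaf :=
  (Scheme.Modules.overFunctorEquiv U).app (SheafOfModules.unit X.ringCatSheaf) ≪≫
    Scheme.Modules.restrictUnitIso U.ι

/-- `η` for transporting generating sections through the inverse of `overEquiv`. -/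
def overEquivInverseUnitIso (U : X.Opens) :
    SheafOfModules.unit (X.ringCatSheaf.over U) ≅
      (Scheme.Modules.overEquiv U).inverse.obj (SheafOfModules.unit U.toScheme.ringCatSheaf) :=
  (Scheme.Modules.overEquiv U).unitIso.app _ ≪≫
    (Scheme.Modules.overEquiv U).inverse.mapIso (overEquivUnitIso U)

/-- If the pullback of `M` to `U` is trivial, then `M.over U` is free of rank one. -/
def overIsoOfTrivialization (M : X.Modules) (U : X.Opens)
    (e : (Scheme.Modules.pullback U.ι).obj M ≅ SheafOfModules.unit U.toScheme.ringCatSheaf) :
    SheafOfModules.unit (X.ringCatSheaf.over U) ≅ SheafOfModules.over M U :=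
  overEquivInverseUnitIso U ≪≫
  (Scheme.Modules.overEquiv U).inverse.mapIso
    (e.symm ≪≫ ((Scheme.Modules.restrictFunctorIsoPullback U.ι).app M).symm ≪≫
      ((Scheme.Modules.overFunctorEquiv U).app M).symm) ≪≫
    ((Scheme.Modules.overEquiv U).unitIso.app (SheafOfModules.over M U)).symm

section Site

variable {C : Type*} [Category C] {J : GrothendieckTopology C} {R : Sheaf J RingCat.{u}}
  [HasWeakSheafify J AddCommGrpCat.{u}] [J.WEqualsLocallyBijective AddCommGrpCat.{u}]

theorem free_hom_ext {I : Type u} {N : SheafOfModules.{u} R}
    {f g : SheafOfModules.free (R := R) I ⟶ N}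
    (h : ∀ i, SheafOfModules.ιFree i ≫ f = SheafOfModules.ιFree i ≫ g) : f = g := by
  apply (N.freeHomEquiv).injective
  funext i
  exact congrArg N.unitHomEquiv (h i)

theorem ιFree_freeHomEquiv_symm {I : Type u} {N : SheafOfModules.{u} R} (s : I → N.sections)
    (i : I) : SheafOfModules.ιFree i ≫ N.freeHomEquiv.symm s = N.unitHomEquiv.symm (s i) := by
  have := SheafOfModules.unitHomEquiv_symm_freeHomEquiv_apply (N.freeHomEquiv.symm s) i
  rw [Equiv.apply_symm_apply] at this
  exact this.symm

theorem isIso_freeHomEquiv_symm_const {M : SheafOfModules.{u} R}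
    (e : SheafOfModules.unit R ≅ M) :
    IsIso (M.freeHomEquiv.symm (fun _ : PUnit.{u+1} => M.unitHomEquiv e.hom)) := by
  have h1 : ∀ i : PUnit.{u+1}, SheafOfModules.ιFree i ≫
      M.freeHomEquiv.symm (fun _ : PUnit.{u+1} => M.unitHomEquiv e.hom) = e.hom := by
    intro i
    rw [ιFree_freeHomEquiv_symm, Equiv.symm_apply_apply]
  refine ⟨e.inv ≫ SheafOfModules.ιFree PUnit.unit, ?_, ?_⟩
  · apply free_hom_ext
    rintro ⟨⟩
    rw [← Category.assoc, h1, Category.comp_id, e.hom_inv_id_assoc]
  · rw [Category.assoc, h1, e.inv_hom_id]

/-- A sheaf of modules isomorphic to the unit sheaf has generating sections whose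
associated morphism is an isomorphism. -/
def generatingSectionsOfUnitIso {M : SheafOfModules.{u} R} (e : SheafOfModules.unit R ≅ M) :
    M.GeneratingSections where
  I := PUnit.{u+1}
  s := fun _ => M.unitHomEquiv e.hom
  epi := by
    have := isIso_freeHomEquiv_symm_const e
    infer_instance

instance isIso_generatingSectionsOfUnitIso_π {M : SheafOfModules.{u} R}
    (e : SheafOfModules.unit R ≅ M) :
    IsIso (generatingSectionsOfUnitIso e).π :=
  isIso_freeHomEquiv_symm_const e

end Site

section Qcoh

/-- Local generators of an invertible module: one generator on each trivializing open. -/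
def localGeneratorsDataOfTrivializations (M : X.Modules) {ι : Type u} (U : ι → X.Opens)
    (hU : IsOpenCover U)
    (e : ∀ i, (Scheme.Modules.pullback (U i).ι).obj M ≅
      SheafOfModules.unit (U i).toScheme.ringCatSheaf) :
    SheafOfModules.LocalGeneratorsData.{u} (R := X.ringCatSheaf) M where
  I := ι
  X := U
  coversTop := (Opens.coversTop_iff _ _).mpr hU
  generators i := generatingSectionsOfUnitIso (overIsoOfTrivialization M (U i) (e i))

instance (M : X.Modules) {ι : Type u} (U : ι → X.Opens)
    (hU : IsOpenCover U)
    (e : ∀ i, (Scheme.Modules.pullback (U i).ι).obj M ≅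
      SheafOfModules.unit (U i).toScheme.ringCatSheaf) :
    (localGeneratorsDataOfTrivializations M U hU e).IsLocallyFreeData where
  isIso _ := isIso_generatingSectionsOfUnitIso_π _

theorem isLocallyFree_of_trivializations (M : X.Modules) {ι : Type u} (U : ι → X.Opens)
    (hU : IsOpenCover U)
    (e : ∀ i, Nonempty ((Scheme.Modules.pullback (U i).ι).obj M ≅
      SheafOfModules.unit (U i).toScheme.ringCatSheaf)) :
    SheafOfModules.IsLocallyFree (R := X.ringCatSheaf) M :=
  (localGeneratorsDataOfTrivializations M U hU (fun i => (e i).some)).isLocallyFree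

/-- A locally trivial module (in the sense of the Prelude's `IsInvertible`) is locally free. -/
theorem isLocallyFree_of_isInvertible (M : X.Modules) (hM : Scheme.Modules.IsInvertible M) :
    SheafOfModules.IsLocallyFree (R := X.ringCatSheaf) M := by
  choose U hxU e using hM.exists_trivialization
  refine isLocallyFree_of_trivializations M U ?_ e
  rw [IsOpenCover, eq_top_iff]
  intro x _
  exact Opens.mem_iSup.mpr ⟨x, hxU x⟩

/-- A locally trivial module is quasi-coherent. -/
theorem isQuasicoherent_of_isInvertible (M : X.Modules) (hM : Scheme.Modules.IsInvertible M) :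
    SheafOfModules.IsQuasicoherent (R := X.ringCatSheaf) M := by
  have h := isLocallyFree_of_isInvertible M hM
  have h2 := h.exists_isLocallyFreeData.choose_spec
  exact h.exists_isLocallyFreeData.choose.quasiCoherentData.isQuasicoherent

end Qcoh

end

end Fermat.Agent.Jac.AffineDict73
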