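/-
Fermat/Agent/Jac/AffineDict73/Dict.lean  (helper73)

Brick M2a (affine dictionary, invertible part) of the S25 programme, file 3/3.
For `R : CommRingCat` and the frozen notion `Scheme.Modules.IsInvertible` (Prelude):
* `isIso_fromTildeΓ_of_isInvertible`, `isoTildeGamma`: an invertible `M` on `Spec R` is `(Γ M)~`;
* `invertible_gammaMod`: then `Γ M` is `Module.Invertible` over `R`;
* `isInvertible_tilde`: conversely `N~` is invertible for `N` `Module.Invertible`;
* `isInvertible_tilde_iff`, `exists_invertible_iso_tilde`, `nonempty_tilde_iso_iff`.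
-/
import Mathlib
import Fermat.Prelude.Def_AlgebraicGeometry_RelativePicardFunctor
import Fermat.Agent.Jac.TildePullback
import Fermat.Agent.Jac.AffineDict73.Qcoh
import Fermat.Agent.Jac.AffineDict73.InvertibleLocal

set_option autoImplicit false

universe u

open CategoryTheory CategoryTheory.Limits AlgebraicGeometry TopologicalSpace TensorProduct

namespace Fermat.Agent.Jac.AffineDict73

noncomputable section

section Bridge

variable {R S : Type u} [CommRing R] [CommRing S] [Algebra R S] (N : ModuleCat.{u} R)

set_option backward.isDefEq.respectTransparency false in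
/-- `S` with the `R`-module structure used by `ModuleCat.extendScalars` is `S` with its algebra
module structure. -/
def restrictScalarsSelfEquiv :
    ((ModuleCat.restrictScalars (algebraMap R S)).obj (ModuleCat.of S S)) ≃ₗ[R] S where
  toFun x := x
  invFun x := x
  left_inv _ := rfl
  right_inv _ := rfl
  map_add' _ _ := rfl
  map_smul' r x := by
    have h := ModuleCat.restrictScalars.smul_def (algebraMap R S) (M := ModuleCat.of S S) r x
    simp only [RingHom.id_apply]
    rw [Algebra.smul_def]
    exact h

set_option backward.isDefEq.respectTransparency false in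
/-- Mathlib's `ModuleCat.extendScalars` along `algebraMap R S` is the usual base change
`S ⊗[R] N`. -/
def extendScalarsEquivTensor :
    ((ModuleCat.extendScalars (algebraMap R S)).obj N) ≃ₗ[S] S ⊗[R] N :=
  { TensorProduct.congr (restrictScalarsSelfEquiv (R := R) (S := S)) (LinearEquiv.refl R N) with
    map_smul' := fun s x => by
      induction x using TensorProduct.induction_on with
      | zero =>
        simp only [AddHom.toFun_eq_coe, LinearMap.coe_toAddHom, LinearEquiv.coe_coe,
          RingHom.id_apply]
        rw [smul_zero, map_zero, smul_zero]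
      | tmul a n => rfl
      | add x y hx hy =>
        simp only [AddHom.toFun_eq_coe, LinearMap.coe_toAddHom, LinearEquiv.coe_coe,
          RingHom.id_apply] at hx hy ⊢
        rw [smul_add, map_add, hx, hy, map_add, smul_add] }

end Bridge

variable {R : CommRingCat.{u}}

/-- The localization map `Spec R_f ⟶ Spec R`. -/
abbrev awayMap (f : R) : R ⟶ CommRingCat.of (Localization.Away f) :=
  CommRingCat.ofHom (algebraMap R (Localization.Away f))

/-- A trivialization over an open `U` containing `D(f)` gives a trivialization of the pullback to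
`Spec R_f`. -/
def trivializationAway {X : Scheme.{u}} (M : X.Modules) (U : X.Opens)
    (e : (Scheme.Modules.pullback U.ι).obj M ≅ SheafOfModules.unit U.toScheme.ringCatSheaf)
    {Y : Scheme.{u}} (j : Y ⟶ X) [IsOpenImmersion j] (hj : j.opensRange ≤ U) :
    (Scheme.Modules.pullback j).obj M ≅ SheafOfModules.unit Y.ringCatSheaf :=
  let j' : Y ⟶ U.toScheme := IsOpenImmersion.lift U.ι j (by
    rw [Scheme.Opens.range_ι]
    exact hj)
  have hfac : j' ≫ U.ι = j := IsOpenImmersion.lift_fac _ _ _
  (Scheme.Modules.pullbackCongr hfac.symm).app M ≪≫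
    ((Scheme.Modules.pullbackComp j' U.ι).app M).symm ≪≫
    (Scheme.Modules.pullback j').mapIso e ≪≫ Scheme.Modules.pullbackUnitIso j'

/-- Global sections of a module on `Spec R`, as an `R`-module. -/
abbrev gammaMod (M : (Spec R).Modules) : ModuleCat.{u} R := moduleSpecΓFunctor.obj M

/-- If `M` is quasi-coherent (`M ≅ (Γ M)~`) and its pullback to `Spec S` is trivial, then the base
change of `Γ M` to `S` is free of rank one (categorical form). -/
def extendScalarsIsoOfTrivial {S : CommRingCat.{u}} (φ : R ⟶ S) (M : (Spec R).Modules)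
    (hM : IsIso (Scheme.Modules.fromTildeΓ (R := R) M))
    (e : (Scheme.Modules.pullback (Spec.map φ)).obj M ≅ SheafOfModules.unit (Spec S).ringCatSheaf) :
    (ModuleCat.extendScalars φ.hom).obj (gammaMod M) ≅ ModuleCat.of S S :=
  let a : (tilde.functor R).obj (gammaMod M) ≅ M := @asIso _ _ _ _ _ hM
  (tilde.fullyFaithfulFunctor (R := S)).preimageIso
    (((TildePullback.pullbackTildeIso φ).app (gammaMod M)).symm ≪≫
      (Scheme.Modules.pullback (Spec.map φ)).mapIso a ≪≫ e ≪≫
      (tildeSelf (R := S)).symm)

/-- Linear-equivalence form of `extendScalarsIsoOfTrivial` for a localization away from `f`. -/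
def localizedEquivOfTrivial (f : R) (M : (Spec R).Modules)
    (hM : IsIso (Scheme.Modules.fromTildeΓ (R := R) M))
    (e : (Scheme.Modules.pullback (Spec.map (awayMap f))).obj M ≅
      SheafOfModules.unit (Spec (CommRingCat.of (Localization.Away f))).ringCatSheaf) :
    LocalizedModule.Away f (gammaMod M) ≃ₗ[Localization.Away f] Localization.Away f :=
  (LocalizedModule.equivTensorProduct (Submonoid.powers f) (gammaMod M)) ≪≫ₗ
    (extendScalarsEquivTensor (R := R) (S := Localization.Away f) (gammaMod M)).symm ≪≫ₗ
    (extendScalarsIsoOfTrivial (awayMap f) M hM e).toLinearEquiv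

/-- The elements `f` such that `M` becomes trivial on `Spec R_f` generate the unit ideal, when `M`
is locally trivial. -/
theorem span_trivializing_eq_top (M : (Spec R).Modules) (hM : Scheme.Modules.IsInvertible M) :
    Ideal.span {f : R | Nonempty ((Scheme.Modules.pullback (Spec.map (awayMap f))).obj M ≅
      SheafOfModules.unit (Spec (CommRingCat.of (Localization.Away f))).ringCatSheaf)} = ⊤ := by
  by_contra hne
  obtain ⟨m, hm, hle⟩ := Ideal.exists_le_maximal _ hne
  let x : Spec R := ⟨m, hm.isPrime⟩
  obtain ⟨U, hxU, ⟨e⟩⟩ := hM.exists_trivialization x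
  obtain ⟨_, ⟨_, ⟨f, rfl⟩, rfl⟩, hxf, hfU⟩ :=
    PrimeSpectrum.isBasis_basic_opens.exists_subset_of_mem_open hxU U.2
  have hfs : f ∈ m := by
    apply hle
    apply Ideal.subset_span
    refine ⟨trivializationAway M U e (Spec.map (awayMap f)) ?_⟩
    rw [Scheme.Hom.opensRange_localizationAway]
    exact hfU
  exact hxf hfs

/-- If `N_f` is free of rank one then `N~` is trivial on `D(f)`. -/
def tildeTrivializationOfEquiv (N : ModuleCat.{u} R) (f : R)
    (e : LocalizedModule.Away f N ≃ₗ[Localization.Away f] Localization.Away f) :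
    (Scheme.Modules.pullback (Scheme.Opens.ι (X := Spec R) (PrimeSpectrum.basicOpen f))).obj
        (tilde N) ≅
      SheafOfModules.unit
        (Scheme.Opens.toScheme (X := Spec R) (PrimeSpectrum.basicOpen f)).ringCatSheaf :=
  let S : CommRingCat.{u} := CommRingCat.of (Localization.Away f)
  let e' : (ModuleCat.extendScalars (awayMap f).hom).obj N ≅ ModuleCat.of S S :=
    ((extendScalarsEquivTensor (R := R) (S := Localization.Away f) N) ≪≫ₗ
      (LocalizedModule.equivTensorProduct (Submonoid.powers f) N).symm ≪≫ₗ e).toModuleIso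
  (Scheme.Modules.pullbackCongr (basicOpenIsoSpecAway_hom_SpecMap f).symm).app (tilde N) ≪≫
    ((Scheme.Modules.pullbackComp (basicOpenIsoSpecAway f).hom (Spec.map (awayMap f))).app
      (tilde N)).symm ≪≫
    (Scheme.Modules.pullback (basicOpenIsoSpecAway f).hom).mapIso
      ((TildePullback.pullbackTildeIso (awayMap f)).app N ≪≫
        (tilde.functor S).mapIso e' ≪≫ tildeSelf (R := S)) ≪≫
    Scheme.Modules.pullbackUnitIso (basicOpenIsoSpecAway f).hom

/-! ### Main statements -/

/-- (M2a.i) A locally trivial module on `Spec R` is the tilde of its global sections. -/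
theorem isIso_fromTildeΓ_of_isInvertible (M : (Spec R).Modules)
    (hM : Scheme.Modules.IsInvertible M) :
    IsIso (Scheme.Modules.fromTildeΓ (R := R) M) := by
  have : SheafOfModules.IsQuasicoherent (R := (Spec R).ringCatSheaf) M :=
    isQuasicoherent_of_isInvertible M hM
  exact Scheme.Modules.isIso_fromTildeΓ_of_isQuasicoherent M

/-- (M2a.i) The isomorphism `(Γ M)~ ≅ M` for a locally trivial `M`. -/
def isoTildeGamma (M : (Spec R).Modules) (hM : Scheme.Modules.IsInvertible M) :
    (tilde.functor R).obj (gammaMod M) ≅ M :=
  @asIso _ _ _ _ _ (isIso_fromTildeΓ_of_isInvertible M hM)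

/-- (M2a.i) Global sections of a locally trivial module on `Spec R` form an invertible module. -/
theorem invertible_gammaMod (M : (Spec R).Modules) (hM : Scheme.Modules.IsInvertible M) :
    Module.Invertible R (gammaMod M) := by
  have hiso := isIso_fromTildeΓ_of_isInvertible M hM
  refine invertible_of_localizationSpan _ (span_trivializing_eq_top M hM) (fun r => ?_)
  obtain ⟨e⟩ := r.2
  exact ⟨localizedEquivOfTrivial r.1 M hiso e⟩

/-- (M2a.ii) The tilde of an invertible module is locally trivial. -/
theorem isInvertible_tilde (N : ModuleCat.{u} R) [Module.Invertible R N] :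
    Scheme.Modules.IsInvertible (tilde N) := by
  refine ⟨fun x => ?_⟩
  obtain ⟨s, hs, hfree⟩ := Module.Invertible.exists_finset_free_localization R N
  have hex : ∃ r ∈ s, r ∉ x.asIdeal := by
    by_contra hcon
    push Not at hcon
    have hle : Ideal.span (s : Set R) ≤ x.asIdeal := Ideal.span_le.mpr (fun r hr => hcon r hr)
    rw [hs] at hle
    exact x.isPrime.ne_top (top_le_iff.mp hle)
  obtain ⟨r, hrs, hrx⟩ := hex
  have hfr := hfree r hrs
  obtain ⟨e⟩ := (Module.Invertible.free_iff_linearEquiv
    (R := Localization.Away r) (M := LocalizedModule.Away r N)).mp hfr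
  exact ⟨PrimeSpectrum.basicOpen r, hrx, ⟨tildeTrivializationOfEquiv N r e⟩⟩

/-- (M2a) `N~` is locally trivial iff `N` is an invertible module. -/
theorem isInvertible_tilde_iff (N : ModuleCat.{u} R) :
    Scheme.Modules.IsInvertible (tilde N) ↔ Module.Invertible R N := by
  constructor
  · intro h
    have h1 : Module.Invertible R
        ((modulesSpecToSheaf.obj (tilde N)).presheaf.obj (Opposite.op ⊤)) :=
      invertible_gammaMod (tilde N) h
    exact Module.Invertible.congr (tilde.isoTop N).toLinearEquiv.symm
  · intro h
    exact isInvertible_tilde N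

/-- (M2a) Every locally trivial module on `Spec R` is the tilde of an invertible module. -/
theorem exists_invertible_iso_tilde (M : (Spec R).Modules) (hM : Scheme.Modules.IsInvertible M) :
    ∃ N : ModuleCat.{u} R, Module.Invertible R N ∧ Nonempty (tilde N ≅ M) :=
  ⟨gammaMod M, invertible_gammaMod M hM, ⟨isoTildeGamma M hM⟩⟩

/-- (M2a.iii) Isomorphism classes: `N~ ≅ N'~` iff `N ≃ₗ[R] N'` (full faithfulness of tilde). -/
theorem nonempty_tilde_iso_iff (N N' : ModuleCat.{u} R) :
    Nonempty (tilde N ≅ tilde N') ↔ Nonempty (N ≃ₗ[R] N') := by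
  constructor
  · rintro ⟨e⟩
    exact ⟨((tilde.fullyFaithfulFunctor (R := R)).preimageIso e).toLinearEquiv⟩
  · rintro ⟨e⟩
    exact ⟨(tilde.functor R).mapIso e.toModuleIso⟩

end

end Fermat.Agent.Jac.AffineDict73
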