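/-
Fermat/Agent/Jac/AffineDict73/PullbackGamma.lean  (helper73)

Brick M2a of the S25 programme, supplement: compatibility of the affine dictionary with base change.
For a quasi-coherent (e.g. locally trivial) module `M` on `Spec R` and `φ : R ⟶ S`:
* `pullbackIsoTilde` : `(Spec.map φ)^* M ≅ (S ⊗[R] Γ M)~`;
* `gammaPullbackIso` : `Γ ((Spec.map φ)^* M) ≅ S ⊗[R] Γ M` in `ModuleCat S`;
* `gammaPullbackEquiv` : the same as an `S`-linear equivalence with the plain tensor product, for
  `φ = algebraMap`.
-/
import Mathlib
import Fermat.Prelude.Def_AlgebraicGeometry_RelativePicardFunctor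
import Fermat.Agent.Jac.TildePullback
import Fermat.Agent.Jac.AffineDict73.Dict

set_option autoImplicit false

universe u

open CategoryTheory CategoryTheory.Limits AlgebraicGeometry TopologicalSpace TensorProduct

namespace Fermat.Agent.Jac.AffineDict73

noncomputable section

variable {R S : CommRingCat.{u}} (φ : R ⟶ S)

/-- Pullback of a quasi-coherent module on `Spec R` along `Spec.map φ` is the tilde of the base
change of its global sections. -/
def pullbackIsoTilde (M : (Spec R).Modules)
    (hM : IsIso (Scheme.Modules.fromTildeΓ (R := R) M)) :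
    (Scheme.Modules.pullback (Spec.map φ)).obj M ≅
      (tilde.functor S).obj ((ModuleCat.extendScalars φ.hom).obj (gammaMod M)) :=
  let a : (tilde.functor R).obj (gammaMod M) ≅ M := @asIso _ _ _ _ _ hM
  (Scheme.Modules.pullback (Spec.map φ)).mapIso a.symm ≪≫
    (TildePullback.pullbackTildeIso φ).app (gammaMod M)

/-- Global sections of the pullback are the base change of the global sections. -/
def gammaPullbackIso (M : (Spec R).Modules)
    (hM : IsIso (Scheme.Modules.fromTildeΓ (R := R) M)) :
    gammaMod ((Scheme.Modules.pullback (Spec.map φ)).obj M) ≅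
      (ModuleCat.extendScalars φ.hom).obj (gammaMod M) :=
  (moduleSpecΓFunctor (R := S)).mapIso (pullbackIsoTilde φ M hM) ≪≫
    (tilde.isoTop ((ModuleCat.extendScalars φ.hom).obj (gammaMod M))).symm

/-- The pullback of a locally trivial module is again of the form `N~` (it is quasi-coherent). -/
theorem isIso_fromTildeΓ_pullback (M : (Spec R).Modules)
    (hM : IsIso (Scheme.Modules.fromTildeΓ (R := R) M)) :
    IsIso (Scheme.Modules.fromTildeΓ (R := S) ((Scheme.Modules.pullback (Spec.map φ)).obj M)) := by
  rw [isIso_fromTildeΓ_iff]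
  exact ⟨_, ⟨(pullbackIsoTilde φ M hM).symm⟩⟩

end

noncomputable section

variable {R : CommRingCat.{u}} {S : Type u} [CommRing S] [Algebra R S]

/-- `S`-linear form of `gammaPullbackIso` for an `R`-algebra `S`, with the plain tensor product. -/
def gammaPullbackEquiv (M : (Spec R).Modules)
    (hM : IsIso (Scheme.Modules.fromTildeΓ (R := R) M)) :
    gammaMod ((Scheme.Modules.pullback
      (Spec.map (CommRingCat.ofHom (algebraMap R S)))).obj M) ≃ₗ[S] S ⊗[R] gammaMod M :=
  (gammaPullbackIso (CommRingCat.ofHom (algebraMap R S)) M hM).toLinearEquiv ≪≫ₗ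
    extendScalarsEquivTensor (R := R) (S := S) (gammaMod M)

end

end Fermat.Agent.Jac.AffineDict73
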